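import Mathlib
import Fermat.Prelude.Def_ModularCurve_IgusaScheme

set_option autoImplicit false

open AlgebraicGeometry CategoryTheory CategoryTheory.Limits ModularCurve ModularCurve.IgusaScheme
open TensorProduct

noncomputable section

namespace Fermat.Agent.S28.H928

universe u

/-- A scheme covered by two integral open subschemes which share a point is integral. -/
theorem isIntegral_of_two_charts {X U V W : Scheme.{u}} (iU : U ⟶ X) (iV : V ⟶ X)
    [IsOpenImmersion iU] [IsOpenImmersion iV]
    (hcov : ∀ x : X, x ∈ Set.range iU ∨ x ∈ Set.range iV)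
    [IsIntegral U] [IsIntegral V] (a : W ⟶ U) (b : W ⟶ V) (hab : a ≫ iU = b ≫ iV)
    [Nonempty W] : IsIntegral X := by
  obtain ⟨w⟩ := ‹Nonempty W›
  -- the common point
  have hpU : (a ≫ iU) w ∈ Set.range iU := ⟨a w, by simp⟩
  have hpV : (a ≫ iU) w ∈ Set.range iV := ⟨b w, by rw [hab]; simp⟩
  -- reducedness
  have hred : IsReduced X := by
    let 𝒰 : X.OpenCover := Scheme.Cover.mkOfCovers Bool (fun b => cond b U V)
      (fun b => match b with
        | true => iU
        | false => iV)
      (fun x => by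
        rcases hcov x with ⟨y, hy⟩ | ⟨y, hy⟩
        · exact ⟨true, y, hy⟩
        · exact ⟨false, y, hy⟩)
      (fun b => by cases b <;> (dsimp only; infer_instance))
    have : ∀ i, IsReduced (𝒰.X i) := by
      intro i
      cases i
      · show IsReduced V; infer_instance
      · show IsReduced U; infer_instance
    exact IsReduced.of_openCover X 𝒰
  -- irreducibility
  have hUirr : IsPreirreducible (Set.range iU) := by
    have := ((IrreducibleSpace.isIrreducible_univ U).image iU
      iU.continuous.continuousOn).isPreirreducible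
    rwa [Set.image_univ] at this
  have hVirr : IsPreirreducible (Set.range iV) := by
    have := ((IrreducibleSpace.isIrreducible_univ V).image iV
      iV.continuous.continuousOn).isPreirreducible
    rwa [Set.image_univ] at this
  have hpre : PreirreducibleSpace X := by
    let Uo : Bool → TopologicalSpace.Opens X := fun b => cond b iU.opensRange iV.opensRange
    refine PreirreducibleSpace.of_isOpenCover (U := Uo) ?_ ?_ ?_
    · intro b b' hbb'
      have key : ¬ Disjoint iU.opensRange iV.opensRange := by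
        rw [← TopologicalSpace.Opens.coe_disjoint, Set.not_disjoint_iff]
        exact ⟨(a ≫ iU) w, hpU, hpV⟩
      cases b <;> cases b'
      · exact absurd rfl hbb'
      · show ¬ Disjoint iV.opensRange iU.opensRange
        exact fun h => key h.symm
      · exact key
      · exact absurd rfl hbb'
    · rw [TopologicalSpace.IsOpenCover, eq_top_iff]
      intro x _
      rw [TopologicalSpace.Opens.mem_iSup]
      rcases hcov x with h | h
      · exact ⟨true, h⟩
      · exact ⟨false, h⟩
    · intro b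
      cases b
      · exact Subtype.preirreducibleSpace hVirr
      · exact Subtype.preirreducibleSpace hUirr
  have : IrreducibleSpace X := { toPreirreducibleSpace := hpre, toNonempty := ⟨(a ≫ iU) w⟩ }
  exact isIntegral_of_irreducibleSpace_of_isReduced X


section Igusa

variable (N : ℕ) [NeZero N] (ℓ : ℕ) [Fact ℓ.Prime]
variable (K : Type) [Field K] [Algebra ↥(GaloisRep.ratLocalizedAt ℓ) K]

/-- An affine chart `Spec A → Spec R` pulled back to `Spec K` is integral as soon as
`A ⊗[R] K` is a domain. -/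
theorem isIntegral_pullback_chart {R A : Type} [CommRing R] [CommRing A] [Algebra R A]
    [Algebra R K] {X : Scheme.{0}} (f : X ⟶ Spec (CommRingCat.of R))
    (i : Spec (CommRingCat.of A) ⟶ X)
    (hi : i ≫ f = Spec.map (CommRingCat.ofHom (algebraMap R A)))
    (h : IsDomain (A ⊗[R] K)) :
    IsIntegral (pullback (i ≫ f) (Spec.map (CommRingCat.ofHom (algebraMap R K)))) := by
  have e : pullback (i ≫ f) (Spec.map (CommRingCat.ofHom (algebraMap R K))) ≅
      Spec (CommRingCat.of (A ⊗[R] K)) :=
    pullback.congrHom hi rfl ≪≫ pullbackSpecIso R A K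
  have : IsIntegral (Spec (CommRingCat.of (A ⊗[R] K))) := inferInstance
  exact IsIntegral.of_isIso e.inv

theorem nonempty_pullback_chart {R A : Type} [CommRing R] [CommRing A] [Algebra R A]
    [Algebra R K] {X : Scheme.{0}} (f : X ⟶ Spec (CommRingCat.of R))
    (i : Spec (CommRingCat.of A) ⟶ X)
    (hi : i ≫ f = Spec.map (CommRingCat.ofHom (algebraMap R A)))
    (h : Nontrivial (A ⊗[R] K)) :
    Nonempty ↥(pullback (i ≫ f) (Spec.map (CommRingCat.ofHom (algebraMap R K)))) := by
  have e : pullback (i ≫ f) (Spec.map (CommRingCat.ofHom (algebraMap R K))) ≅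
      Spec (CommRingCat.of (A ⊗[R] K)) :=
    pullback.congrHom hi rfl ≪≫ pullbackSpecIso R A K
  have : Nonempty ↥(Spec (CommRingCat.of (A ⊗[R] K))) := inferInstance
  exact Nonempty.map e.inv ‹_›

theorem fFin_ιFin_igusaTo :
    (fFin N ℓ ≫ ιFin N ℓ) ≫ igusaTo N ℓ =
      Spec.map (CommRingCat.ofHom
        (algebraMap ↥(GaloisRep.ratLocalizedAt ℓ) (chartAlgMid N ℓ))) := by
  rw [Category.assoc, ιFin_igusaTo, ← Spec.map_comp, ← CommRingCat.ofHom_comp]
  rfl

/-- The scheme wrapper: the fibre of the Igusa scheme over `K` is integral as soon as the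
two chart algebras become domains after `⊗ K` and the middle chart algebra stays nontrivial. -/
theorem isIntegral_pullback_of_charts
    (hFin : IsDomain ((chartAlgFin N ℓ) ⊗[↥(GaloisRep.ratLocalizedAt ℓ)] K))
    (hInf : IsDomain ((chartAlgInf N ℓ) ⊗[↥(GaloisRep.ratLocalizedAt ℓ)] K))
    (hMid : Nontrivial ((chartAlgMid N ℓ) ⊗[↥(GaloisRep.ratLocalizedAt ℓ)] K)) :
    IsIntegral (pullback (igusaTo N ℓ)
      (Spec.map (CommRingCat.ofHom (algebraMap ↥(GaloisRep.ratLocalizedAt ℓ) K)))) := by
  set g := Spec.map (CommRingCat.ofHom (algebraMap ↥(GaloisRep.ratLocalizedAt ℓ) K)) with hg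
  -- the two charts of the fibre
  let iU : pullback (ιFin N ℓ ≫ igusaTo N ℓ) g ⟶ pullback (igusaTo N ℓ) g :=
    pullback.map _ _ _ _ (ιFin N ℓ) (𝟙 _) (𝟙 _) (by simp) (by simp)
  let iV : pullback (ιInf N ℓ ≫ igusaTo N ℓ) g ⟶ pullback (igusaTo N ℓ) g :=
    pullback.map _ _ _ _ (ιInf N ℓ) (𝟙 _) (𝟙 _) (by simp) (by simp)
  have : IsIntegral (pullback (ιFin N ℓ ≫ igusaTo N ℓ) g) :=
    isIntegral_pullback_chart K (igusaTo N ℓ) (ιFin N ℓ) (ιFin_igusaTo N ℓ) hFin
  have : IsIntegral (pullback (ιInf N ℓ ≫ igusaTo N ℓ) g) :=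
    isIntegral_pullback_chart K (igusaTo N ℓ) (ιInf N ℓ) (ιInf_igusaTo N ℓ) hInf
  have : Nonempty ↥(pullback ((fFin N ℓ ≫ ιFin N ℓ) ≫ igusaTo N ℓ) g) :=
    nonempty_pullback_chart K (igusaTo N ℓ) (fFin N ℓ ≫ ιFin N ℓ) (fFin_ιFin_igusaTo N ℓ) hMid
  let a : pullback ((fFin N ℓ ≫ ιFin N ℓ) ≫ igusaTo N ℓ) g ⟶
      pullback (ιFin N ℓ ≫ igusaTo N ℓ) g :=
    pullback.map _ _ _ _ (fFin N ℓ) (𝟙 _) (𝟙 _) (by simp) (by simp)
  let b : pullback ((fFin N ℓ ≫ ιFin N ℓ) ≫ igusaTo N ℓ) g ⟶
      pullback (ιInf N ℓ ≫ igusaTo N ℓ) g :=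
    pullback.map _ _ _ _ (fInf N ℓ) (𝟙 _) (𝟙 _)
      (by rw [Category.comp_id, glue_condition, Category.assoc]) (by simp)
  refine isIntegral_of_two_charts iU iV ?_ a b ?_
  · -- covering
    let 𝒰 : (ModularCurve.IgusaScheme N ℓ).OpenCover :=
      Scheme.Cover.mkOfCovers Bool (fun b => cond b (XFin N ℓ) (XInf N ℓ))
        (fun b => match b with
          | true => ιFin N ℓ
          | false => ιInf N ℓ)
        (fun x => by
          rcases mem_range_ιFin_or_mem_range_ιInf N ℓ x with ⟨y, hy⟩ | ⟨y, hy⟩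
          · exact ⟨true, y, hy⟩
          · exact ⟨false, y, hy⟩)
        (fun b => by cases b <;> (dsimp only; infer_instance))
    intro x
    obtain ⟨i, y, hy⟩ := (Scheme.Pullback.openCoverOfLeft 𝒰 (igusaTo N ℓ) g).exists_eq x
    cases i
    · exact Or.inr ⟨y, hy⟩
    · exact Or.inl ⟨y, hy⟩
  · apply pullback.hom_ext
    · simp only [a, b, iU, iV, Category.assoc, pullback.lift_fst, pullback.map]
      rw [pullback.lift_fst_assoc, pullback.lift_fst_assoc, Category.assoc, Category.assoc,
        glue_condition, Category.assoc]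
    · simp only [a, b, iU, iV, Category.assoc, pullback.lift_snd, pullback.map]
      rw [pullback.lift_snd_assoc, pullback.lift_snd_assoc]

end Igusa

end Fermat.Agent.S28.H928
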